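import Mathlib

/-!
# P2, block 3-SMITH: group algebras of 2-groups in characteristic 2
-/

set_option autoImplicit false

noncomputable section

namespace Fermat.Agent.P2.Smith

section Units

variable (K H : Type*) [Field K] [CharP K 2] [CommGroup H]

/-- augmentation -/
def aug : MonoidAlgebra K H →ₐ[K] K := MonoidAlgebra.lift K K H (1 : H →* K)

variable {K H}

@[simp] lemma aug_single (h : H) (x : K) : aug K H (MonoidAlgebra.single h x) = x := by
  simp [aug]

/-- a large power of `x` is the constant `aug x ^ (2 ^ m)` -/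
lemma pow_eq_algebraMap {m : ℕ} (hm : ∀ h : H, h ^ 2 ^ m = 1) (x : MonoidAlgebra K H) :
    x ^ 2 ^ m = algebraMap K (MonoidAlgebra K H) (aug K H x ^ 2 ^ m) := by
  haveI : CharP (MonoidAlgebra K H) 2 :=
    charP_of_injective_algebraMap (algebraMap K (MonoidAlgebra K H)).injective 2
  have h1 : (iterateFrobenius (MonoidAlgebra K H) 2 m) =
      (algebraMap K (MonoidAlgebra K H)).comp
        ((iterateFrobenius K 2 m).comp (aug K H).toRingHom) := by
    apply MonoidAlgebra.ringHom_ext
    · intro r
      rw [iterateFrobenius_def, MonoidAlgebra.single_pow, one_pow]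
      show _ = algebraMap K (MonoidAlgebra K H)
        (iterateFrobenius K 2 m (aug K H (MonoidAlgebra.single 1 r)))
      rw [aug_single, iterateFrobenius_def]
      rfl
    · intro h
      rw [iterateFrobenius_def, MonoidAlgebra.single_pow, one_pow, hm]
      show _ = algebraMap K (MonoidAlgebra K H)
        (iterateFrobenius K 2 m (aug K H (MonoidAlgebra.single h 1)))
      rw [aug_single, map_one, map_one]
      rfl
  have h2 := congrArg (fun f : MonoidAlgebra K H →+* MonoidAlgebra K H ↦ f x) h1
  simpa [iterateFrobenius_def] using h2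

lemma isUnit_of_aug_ne_zero {m : ℕ} (hm : ∀ h : H, h ^ 2 ^ m = 1) {x : MonoidAlgebra K H}
    (hx : aug K H x ≠ 0) : IsUnit x := by
  have h1 : IsUnit (x ^ 2 ^ m) := by
    rw [pow_eq_algebraMap hm]
    exact (IsUnit.mk0 _ (pow_ne_zero _ hx)).map _
  exact (isUnit_pow_iff (by positivity)).mp h1

end Units

section Theta

variable {C H K : Type*} [CommGroup C] [CommGroup H] [Field K] [CharP K 2]
  (ψ : C →* Kˣ) (κ : C →* H)

/-- the ring homomorphism `F_2[C] → K[H]`, `c ↦ ψ(c) κ(c)` -/
def theta : MonoidAlgebra (ZMod 2) C →+* MonoidAlgebra K H :=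
  letI := ZMod.algebra K 2
  (MonoidAlgebra.lift (ZMod 2) (MonoidAlgebra K H) C
    { toFun := fun c ↦ MonoidAlgebra.single (κ c) (ψ c : K)
      map_one' := by simp [MonoidAlgebra.one_def]
      map_mul' := fun c c' ↦ by simp [MonoidAlgebra.single_mul_single] }).toRingHom

@[simp] lemma theta_single (c : C) : theta ψ κ (MonoidAlgebra.single c 1) =
    MonoidAlgebra.single (κ c) (ψ c : K) := by
  simp [theta]

/-- `F_2[C] → K`, `c ↦ ψ(c)` -/
def augPsi : MonoidAlgebra (ZMod 2) C →+* K := (aug K H).toRingHom.comp (theta ψ κ)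

lemma augPsi_apply (x : MonoidAlgebra (ZMod 2) C) : augPsi ψ κ x = aug K H (theta ψ κ x) := rfl

end Theta

end Fermat.Agent.P2.Smith
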