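import Mathlib

/-!
# P2, block 3-SMITH: equivariant Smith theory for correspondences on finite sets

A group `W` (of exponent two) acts on a finite set `X`; `n l` are integral correspondences
commuting with `W`.  Functions which are invariant mod 2 under `w0` can be restricted to the fixed
points of `w0`, compatibly with the correspondences.
-/

set_option autoImplicit false

noncomputable section

namespace Fermat.Agent.P2.Smith

open scoped Classical

section Act

variable {Y L : Type*} [Fintype Y] (k : Type*) [CommRing k] (n : L → Y → Y → ℤ)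

/-- the operator attached to an integral correspondence -/
def op (l : L) : Module.End ℤ (Y → k) where
  toFun f x := ∑ y, (n l x y : k) * f y
  map_add' f g := by
    ext x
    simp [mul_add, Finset.sum_add_distrib]
  map_smul' c f := by
    ext x
    simp only [Pi.smul_apply, zsmul_eq_mul, RingHom.id_apply]
    rw [Finset.mul_sum]
    refine Finset.sum_congr rfl fun y _ ↦ ?_
    ring

variable {k} in
@[simp] lemma op_apply (l : L) (f : Y → k) (x : Y) :
    op k n l f x = ∑ y, (n l x y : k) * f y := rfl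

/-- the action of the free algebra on the correspondences -/
def act : FreeAlgebra ℤ L →ₐ[ℤ] Module.End ℤ (Y → k) := FreeAlgebra.lift ℤ (op k n)

@[simp] lemma act_ι (l : L) : act k n (FreeAlgebra.ι ℤ l) = op k n l :=
  FreeAlgebra.lift_ι_apply _ _

end Act

variable {X W L : Type*} [Fintype X] [Group W] [MulAction W X] (n : L → X → X → ℤ)

/-- fixed points -/
abbrev Fix (X : Type*) {W : Type*} [Group W] [MulAction W X] (w : W) : Type _ := {x : X // w • x = x}

/-- correspondences commuting with `W` -/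
def Equivar : Prop := ∀ (l : L) (w : W) (x y : X), n l (w • x) (w • y) = n l x y

/-- the correspondence restricted to a subset -/
def rest (P : X → Prop) : L → {x // P x} → {x // P x} → ℤ := fun l x y ↦ n l x y

variable {n}

/-- a sum over `X` of an involution-invariant function is a sum over the fixed points, mod 2 -/
lemma sum_eq_sum_fix {w : W} (hw : w * w = 1) (g : X → ZMod 2) (hg : ∀ y, g (w • y) = g y) :
    ∑ y, g y = ∑ y : Fix X w, g y := by
  have h1 : ∑ y ∈ Finset.univ.filter (fun y : X ↦ ¬ w • y = y), g y = 0 := by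
    refine Finset.sum_involution (fun y _ ↦ w • y) ?_ ?_ ?_ ?_
    · intro y _
      rw [hg]
      exact CharTwo.add_self_eq_zero _
    · intro y hy _
      exact (Finset.mem_filter.mp hy).2
    · intro y hy
      rw [Finset.mem_filter] at hy ⊢
      refine ⟨Finset.mem_univ _, fun h ↦ hy.2 ?_⟩
      have := congrArg (fun z ↦ w⁻¹ • z) h
      simpa using this
    · intro y _
      rw [smul_smul, hw, one_smul]
  rw [← Finset.sum_filter_add_sum_filter_not Finset.univ (fun y : X ↦ w • y = y) g, h1, add_zero]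
  exact (Finset.sum_subtype_of_mem (p := fun y ↦ w • y = y) g (fun y hy ↦ (Finset.mem_filter.mp hy).2)).symm.trans
    (by
      refine Finset.sum_congr ?_ fun _ _ ↦ rfl
      ext y
      simp [y.2])

/-- the sign-eigenfunctions -/
def Eps (ε : W →* ℤˣ) (f : X → ℤ) : Prop := ∀ (w : W) (x : X), f (w • x) = (ε w : ℤ) * f x

/-- invariance under all of `W` -/
def Inv (W : Type*) {Y k : Type*} [Group W] [MulAction W Y] (g : Y → k) : Prop :=
  ∀ (w : W) (x : Y), g (w • x) = g x

lemma Eps.op {ε : W →* ℤˣ} (hn : Equivar (W := W) n) {f : X → ℤ} (hf : Eps ε f) (l : L) :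
    Eps ε (op ℤ n l f) := by
  intro w x
  rw [op_apply, op_apply, Finset.mul_sum, ← Equiv.sum_comp (MulAction.toPerm w)]
  refine Finset.sum_congr rfl fun y _ ↦ ?_
  rw [MulAction.toPerm_apply, hn, hf]
  ring

lemma Eps.act {ε : W →* ℤˣ} (hn : Equivar (W := W) n) (p : FreeAlgebra ℤ L) {f : X → ℤ}
    (hf : Eps ε f) : Eps ε (act ℤ n p f) := by
  induction p using FreeAlgebra.induction generalizing f with
  | grade0 r =>
    rw [AlgHom.commutes]
    intro w x
    show r • f (w • x) = (ε w : ℤ) * (r • f x)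
    rw [hf]
    simp only [smul_eq_mul]
    ring
  | grade1 l => rw [act_ι]; exact hf.op hn l
  | mul a b ha hb =>
    rw [map_mul]
    exact ha (hb hf)
  | add a b ha hb =>
    rw [map_add]
    intro w x
    show Smith.act ℤ n a f (w • x) + Smith.act ℤ n b f (w • x) = _
    rw [ha hf w x, hb hf w x]
    exact (mul_add _ _ _).symm

lemma Inv.op {Y k : Type*} [Fintype Y] [CommRing k] [MulAction W Y] {n : L → Y → Y → ℤ}
    (hn : Equivar (W := W) n) {g : Y → k} (hg : Inv W g) (l : L) : Inv W (op k n l g) := by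
  intro w x
  rw [op_apply, op_apply, ← Equiv.sum_comp (MulAction.toPerm w)]
  refine Finset.sum_congr rfl fun y _ ↦ ?_
  rw [MulAction.toPerm_apply, hn, hg]

lemma Inv.act {Y k : Type*} [Fintype Y] [CommRing k] [MulAction W Y] {n : L → Y → Y → ℤ}
    (hn : Equivar (W := W) n) (p : FreeAlgebra ℤ L) {g : Y → k} (hg : Inv W g) :
    Inv W (act k n p g) := by
  induction p using FreeAlgebra.induction generalizing g with
  | grade0 r =>
    rw [AlgHom.commutes]
    intro w x
    show r • g (w • x) = r • g x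
    rw [hg]
  | grade1 l => rw [act_ι]; exact hg.op hn l
  | mul a b ha hb =>
    rw [map_mul]
    exact ha (hb hg)
  | add a b ha hb =>
    rw [map_add]
    intro w x
    show Smith.act k n a g (w • x) + Smith.act k n b g (w • x) = _
    rw [ha hg w x, hb hg w x]
    rfl

section Res

variable {w0 : W}

/-- functions whose reduction mod 2 is invariant under `w0` -/
def Inv2 (w0 : W) (f : X → ℤ) : Prop := ∀ x : X, ((f (w0 • x) : ℤ) : ZMod 2) = f x

/-- reduction mod 2 and restriction to the fixed points -/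
def res (w0 : W) (f : X → ℤ) : Fix X w0 → ZMod 2 := fun x ↦ ((f x : ℤ) : ZMod 2)

lemma cast_unit (u : ℤˣ) : (((u : ℤ)) : ZMod 2) = 1 := by
  rcases Int.units_eq_one_or u with h | h <;> subst h <;> decide

lemma Eps.inv2 {ε : W →* ℤˣ} {f : X → ℤ} (hf : Eps ε f) : Inv2 w0 f := by
  intro x
  rw [hf]
  push_cast
  rw [cast_unit, one_mul]

lemma Inv2.op (hn : Equivar (W := W) n) {f : X → ℤ} (hf : Inv2 w0 f) (l : L) :
    Inv2 w0 (op ℤ n l f) := by
  intro x
  rw [op_apply, op_apply, ← Equiv.sum_comp (MulAction.toPerm w0)]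
  push_cast
  refine Finset.sum_congr rfl fun y _ ↦ ?_
  rw [MulAction.toPerm_apply, hn, hf]

lemma res_op (hn : Equivar (W := W) n) (hw : w0 * w0 = 1) {f : X → ℤ} (hf : Inv2 w0 f) (l : L) :
    res w0 (op ℤ n l f) = op (ZMod 2) (rest n (fun x ↦ w0 • x = x)) l (res w0 f) := by
  ext x
  rw [op_apply]
  show ((op ℤ n l f x : ℤ) : ZMod 2) = _
  rw [op_apply]
  push_cast
  rw [sum_eq_sum_fix hw (fun y ↦ ((n l x y : ℤ) : ZMod 2) * ((f y : ℤ) : ZMod 2))]
  · rfl
  · intro y
    show ((n l x (w0 • y) : ℤ) : ZMod 2) * ((f (w0 • y) : ℤ) : ZMod 2) = _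
    rw [hf y]
    congr 2
    conv_lhs => rw [← x.2]
    rw [hn]

lemma res_act (hn : Equivar (W := W) n) (hw : w0 * w0 = 1) (p : FreeAlgebra ℤ L) {f : X → ℤ}
    (hf : Inv2 w0 f) : Inv2 w0 (act ℤ n p f) ∧
      res w0 (act ℤ n p f) = act (ZMod 2) (rest n (fun x ↦ w0 • x = x)) p (res w0 f) := by
  induction p using FreeAlgebra.induction generalizing f with
  | grade0 r =>
    rw [AlgHom.commutes, AlgHom.commutes]
    refine ⟨fun x ↦ ?_, ?_⟩
    · show ((r • f (w0 • x) : ℤ) : ZMod 2) = ((r • f x : ℤ) : ZMod 2)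
      simp only [smul_eq_mul]
      push_cast
      rw [hf x]
    · ext x
      show ((r • f x : ℤ) : ZMod 2) = r • ((f x : ℤ) : ZMod 2)
      simp [zsmul_eq_mul]
  | grade1 l =>
    rw [act_ι, act_ι]
    exact ⟨hf.op hn l, res_op hn hw hf l⟩
  | mul a b ha hb =>
    rw [map_mul, map_mul]
    obtain ⟨h1, h2⟩ := hb hf
    obtain ⟨h3, h4⟩ := ha h1
    refine ⟨h3, ?_⟩
    show res w0 (Smith.act ℤ n a (Smith.act ℤ n b f)) = _
    rw [h4, h2]
    rfl
  | add a b ha hb =>
    rw [map_add, map_add]
    obtain ⟨h1, h2⟩ := ha hf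
    obtain ⟨h3, h4⟩ := hb hf
    refine ⟨fun x ↦ ?_, ?_⟩
    · show ((Smith.act ℤ n a f (w0 • x) + Smith.act ℤ n b f (w0 • x) : ℤ) : ZMod 2) =
        ((Smith.act ℤ n a f x + Smith.act ℤ n b f x : ℤ) : ZMod 2)
      push_cast
      rw [h1 x, h3 x]
    · ext x
      have e2 := congrFun h2 x
      have e4 := congrFun h4 x
      show ((Smith.act ℤ n a f x + Smith.act ℤ n b f x : ℤ) : ZMod 2) =
        Smith.act (ZMod 2) (rest n (fun x ↦ w0 • x = x)) a (res w0 f) x +
          Smith.act (ZMod 2) (rest n (fun x ↦ w0 • x = x)) b (res w0 f) x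
      rw [← e2, ← e4]
      push_cast
      rfl

end Res

end Fermat.Agent.P2.Smith
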