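import Mathlib
import Fermat.Agent.P2.Smith.Basic

/-!
# P2, block 3-SMITH: lifting invariant functions on the fixed points of `w0`
-/

set_option autoImplicit false

noncomputable section

namespace Fermat.Agent.P2.Smith

open scoped Classical

variable {X W L : Type*} [Fintype X] [CommGroup W] [MulAction W X] {n : L → X → X → ℤ}

/-- `W` acts on the fixed points -/
instance fixAction (w0 : W) : MulAction W (Fix X w0) where
  smul w x := ⟨w • x.1, by rw [smul_smul, mul_comm, mul_smul, x.2]⟩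
  one_smul x := Subtype.ext (one_smul W x.1)
  mul_smul w w' x := Subtype.ext (mul_smul w w' x.1)

@[simp] lemma fix_smul_coe (w0 w : W) (x : Fix X w0) : ((w • x : Fix X w0) : X) = w • (x : X) := rfl

lemma rest_equivar (hn : Equivar (W := W) n) (w0 : W) :
    Equivar (W := W) (rest n (fun x ↦ w0 • x = x)) := fun l w x y ↦ hn l w x y

section Vanish

variable {Y : Type*} [Fintype Y] [MulAction W Y] {m : L → Y → Y → ℤ}

/-- vanishing at the fixed points of `w` -/
def Van (w : W) (g : Y → ZMod 2) : Prop := ∀ x : Y, w • x = x → g x = 0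

lemma op_eq_fix (hm : Equivar (W := W) m) {w : W} (hw : w * w = 1) {g : Y → ZMod 2}
    (hg : Inv W g) (l : L) {x : Y} (hx : w • x = x) :
    op (ZMod 2) m l g x = ∑ y : Fix Y w, ((m l x y : ℤ) : ZMod 2) * g y := by
  rw [op_apply]
  refine sum_eq_sum_fix hw (fun y ↦ ((m l x y : ℤ) : ZMod 2) * g y) (fun y ↦ ?_)
  show ((m l x (w • y) : ℤ) : ZMod 2) * g (w • y) = _
  rw [hg]
  congr 2
  conv_lhs => rw [← hx]
  rw [hm]

lemma Van.op (hm : Equivar (W := W) m) {w : W} (hw : w * w = 1) {g : Y → ZMod 2}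
    (hg : Inv W g) (hv : Van w g) (l : L) : Van w (op (ZMod 2) m l g) := by
  intro x hx
  rw [op_eq_fix hm hw hg l hx]
  exact Finset.sum_eq_zero fun y _ ↦ by rw [hv y y.2, mul_zero]

lemma van_op_of_even (hm : Equivar (W := W) m) {w : W} (hw : w * w = 1) {g : Y → ZMod 2}
    (hg : Inv W g) {l : L} (hev : ∀ x y : Y, w • x = x → w • y = y → Even (m l x y)) :
    Van w (op (ZMod 2) m l g) := by
  intro x hx
  rw [op_eq_fix hm hw hg l hx]
  refine Finset.sum_eq_zero fun y _ ↦ ?_
  have h1 : ((m l x y : ℤ) : ZMod 2) = 0 := by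
    rw [ZMod.intCast_eq_zero_iff_even]
    exact hev x y hx y.2
  rw [h1, zero_mul]

variable (a : L → ZMod 2)

/-- evaluation at the residual eigensystem -/
def ev : FreeAlgebra ℤ L →ₐ[ℤ] ZMod 2 := FreeAlgebra.lift ℤ a

@[simp] lemma ev_ι (l : L) : ev a (FreeAlgebra.ι ℤ l) = a l := FreeAlgebra.lift_ι_apply _ _

/-- killing the fixed points of all `w ∈ Ω` -/
lemma exists_van (hm : Equivar (W := W) m) (hW : ∀ w : W, w * w = 1) (Ω : Finset W)
    (hΩ : ∀ w ∈ Ω, ∃ l, a l = 1 ∧ ∀ x y : Y, w • x = x → w • y = y → Even (m l x y))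
    {g : Y → ZMod 2} (hg : Inv W g) :
    ∃ s : FreeAlgebra ℤ L, ev a s = 1 ∧ Inv W (act (ZMod 2) m s g) ∧
      ∀ w ∈ Ω, Van w (act (ZMod 2) m s g) := by
  induction Ω using Finset.induction_on with
  | empty => exact ⟨1, map_one _, by rw [map_one]; exact hg, by simp⟩
  | insert w Ω hw ih =>
    obtain ⟨s, h1, h2, h3⟩ := ih fun w' hw' ↦ hΩ w' (Finset.mem_insert_of_mem hw')
    obtain ⟨l, hl, hl'⟩ := hΩ w (Finset.mem_insert_self _ _)
    have he : act (ZMod 2) m (FreeAlgebra.ι ℤ l * s) g =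
        op (ZMod 2) m l (act (ZMod 2) m s g) := by
      rw [map_mul, act_ι]
      rfl
    refine ⟨FreeAlgebra.ι ℤ l * s, by rw [map_mul, ev_ι, hl, h1, one_mul], ?_, ?_⟩
    · rw [he]; exact h2.op hm l
    · intro w' hw'
      rw [he]
      rcases Finset.mem_insert.mp hw' with rfl | h
      · exact van_op_of_even hm (hW _) h2 hl'
      · exact (h3 w' h).op hm (hW _) h2 l

end Vanish

section Lift

variable {w0 : W}

/-- lifting mod 2 functions with support in the locus where the stabiliser is `{1, w0}` -/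
lemma exists_lift (ε : W →* ℤˣ) (hε : ε w0 = 1) (g : Fix X w0 → ZMod 2) (hg : Inv W g)
    (hv : ∀ w : W, w ≠ 1 → w ≠ w0 → ∀ x : Fix X w0, w • (x : X) = x → g x = 0) :
    ∃ f : X → ℤ, Eps ε f ∧ res w0 f = g := by
  -- an element of `W` moving the representative of the orbit to `x`
  let o : X → X := fun x ↦ (Quotient.mk (MulAction.orbitRel W X) x).out
  have ho : ∀ x, ∃ w : W, w • o x = x := by
    intro x
    have h1 : (MulAction.orbitRel W X).r (o x) x := Quotient.mk_out (s := MulAction.orbitRel W X) x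
    have h2 : o x ∈ MulAction.orbit W x := h1
    obtain ⟨w, hw⟩ := h2
    exact ⟨w⁻¹, by rw [← hw]; exact inv_smul_smul _ _⟩
  have hoo : ∀ (w : W) x, o (w • x) = o x := by
    intro w x
    show (Quotient.mk (MulAction.orbitRel W X) (w • x)).out = _
    congr 1
    exact Quotient.sound (s := MulAction.orbitRel W X) ⟨w, rfl⟩
  choose μ hμ using ho
  let Good : X → Prop := fun x ↦ w0 • x = x ∧ ∀ w : W, w • x = x → w = 1 ∨ w = w0
  have hGood : ∀ (w : W) x, Good x → Good (w • x) := by
    rintro w x ⟨h1, h2⟩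
    refine ⟨by rw [smul_smul, mul_comm, mul_smul, h1], fun w' hw' ↦ h2 w' ?_⟩
    rw [smul_smul, mul_comm, mul_smul] at hw'
    exact MulAction.injective w hw'
  have hGood' : ∀ (w : W) x, Good (w • x) → Good x := by
    intro w x h
    have := hGood w⁻¹ _ h
    rwa [inv_smul_smul] at this
  let G : X → ZMod 2 := fun x ↦ if h : w0 • x = x then g ⟨x, h⟩ else 0
  have hG : ∀ (w : W) x, w0 • x = x → G (w • x) = G x := by
    intro w x h
    have h' : w0 • w • x = w • x := by rw [smul_smul, mul_comm, mul_smul, h]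
    simp only [G, dif_pos h, dif_pos h']
    exact hg w ⟨x, h⟩
  let f : X → ℤ := fun x ↦ if Good x then (ε (μ x) : ℤ) * (G x).val else 0
  refine ⟨f, ?_, ?_⟩
  · intro w x
    by_cases h : Good x
    · have h' : Good (w • x) := hGood w x h
      simp only [f, if_pos h, if_pos h']
      rw [hG w x h.1, ← mul_assoc]
      congr 1
      -- `μ (w • x)` and `w * μ x` differ by an element of the stabiliser
      have e1 : ((w * μ x)⁻¹ * μ (w • x)) • o x = o x := by
        have e2 : μ (w • x) • o x = w • x := by rw [← hoo w x]; exact hμ _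
        rw [mul_smul, e2, inv_smul_eq_iff, mul_smul, hμ]
      have e3 : ((w * μ x)⁻¹ * μ (w • x)) • x = x := by
        calc ((w * μ x)⁻¹ * μ (w • x)) • x
            = ((w * μ x)⁻¹ * μ (w • x)) • (μ x • o x) := by rw [hμ x]
          _ = μ x • (((w * μ x)⁻¹ * μ (w • x)) • o x) := by rw [smul_smul, mul_comm, mul_smul]
          _ = x := by rw [e1, hμ]
      have e4 : ε ((w * μ x)⁻¹ * μ (w • x)) = 1 := by
        rcases h.2 _ e3 with h2 | h2
        · rw [h2, map_one]
        · rw [h2, hε]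
      rw [map_mul, map_inv, inv_mul_eq_one] at e4
      rw [← e4, map_mul]
      push_cast
      rfl
    · have h' : ¬ Good (w • x) := fun h' ↦ h (hGood' w x h')
      simp only [f, if_neg h, if_neg h', mul_zero]
  · ext x
    show ((f x : ℤ) : ZMod 2) = g x
    by_cases h : Good x
    · simp only [f, if_pos h]
      push_cast
      rw [cast_unit, one_mul, ZMod.natCast_zmod_val]
      simp only [G, dif_pos x.2]
    · simp only [f, if_neg h]
      have h1 : ∃ w : W, w • (x : X) = x ∧ w ≠ 1 ∧ w ≠ w0 := by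
        by_contra hcon
        push Not at hcon
        apply h
        refine ⟨x.2, fun w hw ↦ ?_⟩
        by_cases h2 : w = 1
        · exact Or.inl h2
        · exact Or.inr (hcon w hw h2)
      obtain ⟨w, hw, hw1, hw2⟩ := h1
      rw [hv w hw1 hw2 x hw, Int.cast_zero]

end Lift

/-- **Equivariant Smith theory**: if an element `p` of the Hecke algebra kills the
`ε`-eigenfunctions mod 2, up to multiplication by elements outside of the maximal ideal, then it
kills the invariant functions on the fixed points of `w0`, up to multiplication by elements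
outside of the maximal ideal. -/
theorem smith [Finite W] (hn : Equivar (W := W) n) (hW : ∀ w : W, w * w = 1) (w0 : W)
    (ε : W →* ℤˣ) (hε : ε w0 = 1) (a : L → ZMod 2)
    (h1 : ∀ w : W, w ≠ 1 → w ≠ w0 → ∃ l, a l = 1 ∧
      ∀ x y : X, w • x = x → w • y = y → Even (n l x y))
    (p : FreeAlgebra ℤ L)
    (hp : ∀ f : X → ℤ, Eps ε f → ∃ s, ev a s = 1 ∧
      ∀ x, ((act ℤ n (s * p) f x : ℤ) : ZMod 2) = 0)
    (g : Fix X w0 → ZMod 2) (hg : Inv W g) :
    ∃ s s' : FreeAlgebra ℤ L, ev a s = 1 ∧ ev a s' = 1 ∧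
      act (ZMod 2) (rest n (fun x ↦ w0 • x = x)) (s * p * s') g = 0 := by
  haveI := Fintype.ofFinite W
  have hm := rest_equivar hn w0
  obtain ⟨s', hs', hs'2, hs'3⟩ := exists_van a hm hW
    (Finset.univ.filter (fun w : W ↦ w ≠ 1 ∧ w ≠ w0))
    (fun w hw ↦ by
      rw [Finset.mem_filter] at hw
      obtain ⟨l, hl, hl'⟩ := h1 w hw.2.1 hw.2.2
      exact ⟨l, hl, fun x y hx hy ↦ hl' x y (congrArg Subtype.val hx)
        (congrArg Subtype.val hy)⟩) hg
  obtain ⟨f, hf, hf'⟩ := exists_lift ε hε _ hs'2 (fun w hw1 hw2 x hx ↦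
    hs'3 w (Finset.mem_filter.mpr ⟨Finset.mem_univ _, hw1, hw2⟩) x (Subtype.ext hx))
  obtain ⟨s, hs, hs2⟩ := hp f hf
  refine ⟨s, s', hs, hs', ?_⟩
  rw [map_mul]
  show act (ZMod 2) _ (s * p) (act (ZMod 2) _ s' g) = 0
  rw [← hf', ← (res_act hn (hW w0) (s * p) hf.inv2).2]
  ext x
  exact hs2 x

end Fermat.Agent.P2.Smith
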