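import Mathlib
import Fermat.Agent.P2.Smith.Lift
import Fermat.Agent.P2.Smith.GroupAlg

/-!
# P2, block 3-SMITH: the eigensystem with values in a group algebra occurs in the sign spaces
-/

set_option autoImplicit false

noncomputable section

namespace Fermat.Agent.P2.Smith

open scoped Classical

section Red

variable {X L : Type*} [Fintype X] {n : L → X → X → ℤ}

/-- reduction mod 2 -/
def red (f : X → ℤ) : X → ZMod 2 := fun x ↦ ((f x : ℤ) : ZMod 2)

lemma red_act (p : FreeAlgebra ℤ L) (f : X → ℤ) :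
    red (act ℤ n p f) = act (ZMod 2) n p (red f) := by
  induction p using FreeAlgebra.induction generalizing f with
  | grade0 r =>
    rw [AlgHom.commutes, AlgHom.commutes]
    ext x
    show ((r • f x : ℤ) : ZMod 2) = r • ((f x : ℤ) : ZMod 2)
    simp [zsmul_eq_mul]
  | grade1 l =>
    rw [act_ι, act_ι]
    ext x
    show ((∑ y, ((n l x y : ℤ) : ℤ) * f y : ℤ) : ZMod 2) = ∑ y, (n l x y : ZMod 2) * ((f y : ℤ) : ZMod 2)
    push_cast
    rfl
  | mul a b ha hb =>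
    rw [map_mul, map_mul]
    show red (act ℤ n a (act ℤ n b f)) = _
    rw [ha, hb]
    rfl
  | add a b ha hb =>
    rw [map_add, map_add]
    have : red ((act ℤ n a + act ℤ n b) f) = red (act ℤ n a f) + red (act ℤ n b f) := by
      ext x
      show ((act ℤ n a f x + act ℤ n b f x : ℤ) : ZMod 2) = _
      push_cast
      rfl
    rw [this, ha, hb]
    rfl

end Red

variable {X W L : Type*} [Fintype X] [CommGroup W] [MulAction W X] {n : L → X → X → ℤ} {w0 : W}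

/-- lifting invariant mod 2 functions with support in the locus where the stabiliser is
contained in `{1, w0}` -/
lemma exists_lift_of_van (ε : W →* ℤˣ) (hε : ε w0 = 1) (g : X → ZMod 2) (hg : Inv W g)
    (hv : ∀ w : W, w ≠ 1 → w ≠ w0 → Van w g) :
    ∃ f : X → ℤ, Eps ε f ∧ red f = g := by
  let o : X → X := fun x ↦ (Quotient.mk (MulAction.orbitRel W X) x).out
  have ho : ∀ x, ∃ w : W, w • o x = x := by
    intro x
    have h1 : (MulAction.orbitRel W X).r (o x) x := Quotient.mk_out (s := MulAction.orbitRel W X) x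
    have h2 : o x ∈ MulAction.orbit W x := h1
    obtain ⟨w, hw⟩ := h2
    exact ⟨w⁻¹, by rw [← hw]; exact inv_smul_smul _ _⟩
  have hoo : ∀ (w : W) x, o (w • x) = o x := by
    intro w x
    show (Quotient.mk (MulAction.orbitRel W X) (w • x)).out = _
    congr 1
    exact Quotient.sound (s := MulAction.orbitRel W X) ⟨w, rfl⟩
  choose μ hμ using ho
  refine ⟨fun x ↦ (ε (μ x) : ℤ) * (g x).val, ?_, ?_⟩
  · intro w x
    show (ε (μ (w • x)) : ℤ) * (g (w • x)).val = (ε w : ℤ) * ((ε (μ x) : ℤ) * (g x).val)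
    rw [hg w x, ← mul_assoc]
    by_cases h : ∀ w : W, w • x = x → w = 1 ∨ w = w0
    · congr 1
      have e1 : ((w * μ x)⁻¹ * μ (w • x)) • o x = o x := by
        have e2 : μ (w • x) • o x = w • x := by rw [← hoo w x]; exact hμ _
        rw [mul_smul, e2, inv_smul_eq_iff, mul_smul, hμ]
      have e3 : ((w * μ x)⁻¹ * μ (w • x)) • x = x := by
        calc ((w * μ x)⁻¹ * μ (w • x)) • x
            = ((w * μ x)⁻¹ * μ (w • x)) • (μ x • o x) := by rw [hμ x]
          _ = μ x • (((w * μ x)⁻¹ * μ (w • x)) • o x) := by rw [smul_smul, mul_comm, mul_smul]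
          _ = x := by rw [e1, hμ]
      have e4 : ε ((w * μ x)⁻¹ * μ (w • x)) = 1 := by
        rcases h _ e3 with h2 | h2
        · rw [h2, map_one]
        · rw [h2, hε]
      rw [map_mul, map_inv, inv_mul_eq_one] at e4
      rw [← e4, map_mul]
      push_cast
      rfl
    · push Not at h
      obtain ⟨w', hw', h1, h2⟩ := h
      rw [hv w' h1 h2 x hw']
      simp
  · ext x
    show (((ε (μ x) : ℤ) * (g x).val : ℤ) : ZMod 2) = g x
    push_cast
    rw [cast_unit, one_mul, ZMod.natCast_zmod_val]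

/-- evaluation of a word in the correspondences at an eigensystem -/
def evl {𝓐 : Type*} [CommRing 𝓐] (dih : L → 𝓐) : FreeAlgebra ℤ L →ₐ[ℤ] 𝓐 := FreeAlgebra.lift ℤ dih

@[simp] lemma evl_ι {𝓐 : Type*} [CommRing 𝓐] (dih : L → 𝓐) (l : L) :
    evl dih (FreeAlgebra.ι ℤ l) = dih l := FreeAlgebra.lift_ι_apply _ _

/-- killing the fixed points of all `w ∈ Ω`, by an element which is a unit at the eigensystem -/
lemma exists_van_unit {𝓐 : Type*} [CommRing 𝓐] (dih : L → 𝓐) (hn : Equivar (W := W) n)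
    (hW : ∀ w : W, w * w = 1) (Ω : Finset W)
    (hΩ : ∀ w ∈ Ω, ∃ l, IsUnit (dih l) ∧
      ∀ g : X → ZMod 2, Inv W g → Van w (op (ZMod 2) n l g))
    {g : X → ZMod 2} (hg : Inv W g) :
    ∃ s : FreeAlgebra ℤ L, IsUnit (evl dih s) ∧ Inv W (act (ZMod 2) n s g) ∧
      ∀ w ∈ Ω, Van w (act (ZMod 2) n s g) := by
  induction Ω using Finset.induction_on with
  | empty => exact ⟨1, by rw [map_one]; exact isUnit_one, by rw [map_one]; exact hg, by simp⟩
  | insert w Ω hw ih =>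
    obtain ⟨s, h1, h2, h3⟩ := ih fun w' hw' ↦ hΩ w' (Finset.mem_insert_of_mem hw')
    obtain ⟨l, hl, hl'⟩ := hΩ w (Finset.mem_insert_self _ _)
    have he : act (ZMod 2) n (FreeAlgebra.ι ℤ l * s) g =
        op (ZMod 2) n l (act (ZMod 2) n s g) := by
      rw [map_mul, act_ι]
      rfl
    refine ⟨FreeAlgebra.ι ℤ l * s, by rw [map_mul, evl_ι]; exact hl.mul h1, ?_, ?_⟩
    · rw [he]; exact h2.op hn l
    · intro w' hw'
      rw [he]
      rcases Finset.mem_insert.mp hw' with rfl | h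
      · exact hl' _ h2
      · exact (h3 w' h).op hn (hW _) h2 l

section Phi

variable {𝓐 C : Type*} [CommRing 𝓐] [CharP 𝓐 2] [CommGroup C] [Fintype C]
  (π : C →* 𝓐ˣ) (e : C → X)

/-- the ring homomorphism `F_2 → 𝓐` -/
def z2 (𝓐 : Type*) [CommRing 𝓐] [CharP 𝓐 2] : ZMod 2 →+* 𝓐 := ZMod.castHom dvd_rfl 𝓐

/-- the functional `Φ(g) = ∑_c g(e c) π(c)⁻¹` -/
def Phi (g : X → ZMod 2) : 𝓐 := ∑ c : C, z2 𝓐 (g (e c)) * ((π c)⁻¹ : 𝓐ˣ)

lemma Phi_add (g g' : X → ZMod 2) : Phi π e (g + g') = Phi π e g + Phi π e g' := by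
  unfold Phi
  rw [← Finset.sum_add_distrib]
  refine Finset.sum_congr rfl fun c _ ↦ ?_
  rw [Pi.add_apply, map_add, add_mul]

lemma Phi_zero : Phi (X := X) π e 0 = 0 := by
  unfold Phi
  refine Finset.sum_eq_zero fun c _ ↦ ?_
  rw [Pi.zero_apply, map_zero, zero_mul]

lemma Phi_zsmul (r : ℤ) (g : X → ZMod 2) : Phi π e (r • g) = (r : 𝓐) * Phi π e g := by
  unfold Phi
  rw [Finset.mul_sum]
  refine Finset.sum_congr rfl fun c _ ↦ ?_
  rw [Pi.smul_apply, zsmul_eq_mul, map_mul, map_intCast, mul_assoc]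

variable (u : L → Multiset C)

/-- the dihedral eigenvalue -/
def dihl (l : L) : 𝓐 := ((u l).map fun μ ↦ ((π μ : 𝓐ˣ) : 𝓐)).sum

variable {π e u}

lemma Phi_op (hT : ∀ (l : L) (c : C) (g : X → ZMod 2), Inv W g →
      op (ZMod 2) n l g (e c) = ((u l).map fun μ ↦ g (e (μ * c))).sum)
    {g : X → ZMod 2} (hg : Inv W g) (l : L) :
    Phi π e (op (ZMod 2) n l g) = dihl π u l * Phi π e g := by
  have h1 : ∀ s : Multiset C, ∑ c : C, z2 𝓐 ((s.map fun μ ↦ g (e (μ * c))).sum) *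
      ((π c)⁻¹ : 𝓐ˣ) = (s.map fun μ ↦ ((π μ : 𝓐ˣ) : 𝓐)).sum * Phi π e g := by
    intro s
    induction s using Multiset.induction_on with
    | empty => simp
    | cons μ s ih =>
      simp only [Multiset.map_cons, Multiset.sum_cons, map_add, add_mul, Finset.sum_add_distrib]
      rw [ih]
      congr 1
      unfold Phi
      rw [← Equiv.sum_comp (Equiv.mulLeft μ) (fun c ↦ z2 𝓐 (g (e c)) * (((π c)⁻¹ : 𝓐ˣ) : 𝓐)),
        Finset.mul_sum]
      refine Finset.sum_congr rfl fun c _ ↦ ?_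
      show z2 𝓐 (g (e (μ * c))) * (((π c)⁻¹ : 𝓐ˣ) : 𝓐) =
        (π μ : 𝓐) * (z2 𝓐 (g (e (μ * c))) * (((π (μ * c))⁻¹ : 𝓐ˣ) : 𝓐))
      rw [map_mul, mul_inv, Units.val_mul, mul_left_comm, ← mul_assoc ((π μ : 𝓐ˣ) : 𝓐),
        Units.mul_inv, one_mul]
  unfold dihl
  rw [← h1]
  unfold Phi
  exact Finset.sum_congr rfl fun c _ ↦ by rw [hT l c g hg]

lemma Phi_act (hn : Equivar (W := W) n)
    (hT : ∀ (l : L) (c : C) (g : X → ZMod 2), Inv W g →
      op (ZMod 2) n l g (e c) = ((u l).map fun μ ↦ g (e (μ * c))).sum)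
    (p : FreeAlgebra ℤ L) {g : X → ZMod 2} (hg : Inv W g) :
    Phi π e (act (ZMod 2) n p g) = evl (dihl π u) p * Phi π e g := by
  induction p using FreeAlgebra.induction generalizing g with
  | grade0 r =>
    rw [AlgHom.commutes, AlgHom.commutes]
    show Phi π e (r • g) = _
    rw [Phi_zsmul]
    simp
  | grade1 l => rw [act_ι, evl_ι]; exact Phi_op hT hg l
  | mul a b ha hb =>
    rw [map_mul, map_mul]
    show Phi π e (act (ZMod 2) n a (act (ZMod 2) n b g)) = _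
    rw [ha (hg.act hn b), hb hg, mul_assoc]
  | add a b ha hb =>
    rw [map_add, map_add, add_mul, ← ha hg, ← hb hg]
    exact Phi_add _ _ _ _

end Phi

section Star

variable {𝓐 C : Type*} [CommRing 𝓐] [CharP 𝓐 2] [CommGroup C] [Fintype C]
  {π : C →* 𝓐ˣ} {e : C → X} {u : L → Multiset C}

/-- there is an invariant function at which `Φ` is a unit -/
lemma exists_Phi_unit (c0 : C)
    (hsep : ∀ (c c' : C) (w : W), w • e c' = e c → c = c' ∨ c * c' = c0)
    (ha : ∃ a : C, IsUnit ((π a : 𝓐) ^ 2 + (π c0 : 𝓐))) :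
    ∃ g : X → ZMod 2, Inv W g ∧ IsUnit (Phi (𝓐 := 𝓐) π e g) := by
  obtain ⟨a, ha⟩ := ha
  let g : X → ZMod 2 := fun x ↦ if ∃ w : W, w • e a = x then 1 else 0
  have hg : Inv W g := by
    intro w x
    have : (∃ w' : W, w' • e a = w • x) ↔ ∃ w' : W, w' • e a = x := by
      constructor
      · rintro ⟨w', h⟩
        exact ⟨w⁻¹ * w', by rw [mul_smul, h, inv_smul_smul]⟩
      · rintro ⟨w', h⟩
        exact ⟨w * w', by rw [mul_smul, h]⟩
    simp only [g, this]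
  refine ⟨g, hg, ?_⟩
  have hga : g (e a) = 1 := if_pos ⟨1, one_smul _ _⟩
  -- only `a` and `c0 / a` contribute
  have hsupp : ∀ c : C, c ≠ a → c ≠ c0 * a⁻¹ → g (e c) = 0 := by
    intro c h1 h2
    refine if_neg ?_
    rintro ⟨w, hw⟩
    rcases hsep c a w hw with h | h
    · exact h1 h
    · exact h2 (by rw [← h, mul_inv_cancel_right])
  by_cases hne : a = c0 * a⁻¹ ∨ g (e (c0 * a⁻¹)) = 0
  · have : Phi (𝓐 := 𝓐) π e g = ((π a)⁻¹ : 𝓐ˣ) := by
      unfold Phi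
      rw [Finset.sum_eq_single a]
      · rw [hga, map_one, one_mul]
      · intro c _ hc
        by_cases h : c = c0 * a⁻¹
        · rcases hne with h' | h'
          · exact absurd (h.trans h'.symm) hc
          · rw [h, h', map_zero, zero_mul]
        · rw [hsupp c hc h, map_zero, zero_mul]
      · exact fun h ↦ absurd (Finset.mem_univ _) h
    rw [this]
    exact Units.isUnit _
  · push Not at hne
    obtain ⟨hne, h2⟩ := hne
    have h3 : g (e (c0 * a⁻¹)) = 1 := by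
      have : ∀ z : ZMod 2, z ≠ 0 → z = 1 := by decide
      exact this _ h2
    have : Phi (𝓐 := 𝓐) π e g = ((π a)⁻¹ : 𝓐ˣ) + ((π (c0 * a⁻¹))⁻¹ : 𝓐ˣ) := by
      unfold Phi
      rw [← Finset.sum_subset (Finset.subset_univ {a, c0 * a⁻¹}), Finset.sum_pair hne, hga, h3,
        map_one, one_mul, one_mul]
      intro c _ hc
      rw [Finset.mem_insert, Finset.mem_singleton, not_or] at hc
      rw [hsupp c hc.1 hc.2, map_zero, zero_mul]
    rw [this]
    have h4 : (((π a)⁻¹ : 𝓐ˣ) : 𝓐) + ((π (c0 * a⁻¹))⁻¹ : 𝓐ˣ) =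
        (((π a)⁻¹ * (π c0)⁻¹ : 𝓐ˣ) : 𝓐) * ((π a : 𝓐) ^ 2 + (π c0 : 𝓐)) := by
      rw [mul_add]
      have e1 : (((π a)⁻¹ * (π c0)⁻¹ : 𝓐ˣ) : 𝓐) * (π a : 𝓐) ^ 2 =
          ((π (c0 * a⁻¹))⁻¹ : 𝓐ˣ) := by
        rw [← Units.val_pow_eq_pow_val, ← Units.val_mul]
        congr 1
        rw [map_mul, map_inv, mul_inv, inv_inv, pow_two]
        rw [mul_comm (π a)⁻¹, mul_assoc, inv_mul_cancel_left]
      have e2 : (((π a)⁻¹ * (π c0)⁻¹ : 𝓐ˣ) : 𝓐) * (π c0 : 𝓐) = ((π a)⁻¹ : 𝓐ˣ) := by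
        rw [← Units.val_mul]
        congr 1
        rw [inv_mul_cancel_right]
      rw [e1, e2, add_comm]
    rw [h4]
    exact (Units.isUnit _).mul ha

/-- **The dihedral eigensystem occurs in every sign space** (weak form of (h1)). -/
theorem star' [Finite W] (hn : Equivar (W := W) n) (hW : ∀ w : W, w * w = 1)
    (ε : W →* ℤˣ) (hε : ε w0 = 1) (c0 : C)
    (hsep : ∀ (c c' : C) (w : W), w • e c' = e c → c = c' ∨ c * c' = c0)
    (hT : ∀ (l : L) (c : C) (g : X → ZMod 2), Inv W g →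
      op (ZMod 2) n l g (e c) = ((u l).map fun μ ↦ g (e (μ * c))).sum)
    (h1 : ∀ w : W, w ≠ 1 → w ≠ w0 → ∃ l, IsUnit (dihl (𝓐 := 𝓐) π u l) ∧
      ∀ g : X → ZMod 2, Inv W g → Van w (op (ZMod 2) n l g))
    (ha : ∃ a : C, IsUnit ((π a : 𝓐) ^ 2 + (π c0 : 𝓐)))
    (p : FreeAlgebra ℤ L)
    (hp : ∀ f : X → ℤ, Eps ε f → ∃ s, IsUnit (evl (dihl (𝓐 := 𝓐) π u) s) ∧
      ∀ x, ((act ℤ n (s * p) f x : ℤ) : ZMod 2) = 0) :
    evl (dihl (𝓐 := 𝓐) π u) p = 0 := by
  haveI := Fintype.ofFinite W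
  obtain ⟨g, hg, hgu⟩ := exists_Phi_unit (W := W) (𝓐 := 𝓐) (π := π) (e := e) c0 hsep ha
  obtain ⟨s', hs', hs'2, hs'3⟩ := exists_van_unit (dihl (𝓐 := 𝓐) π u) hn hW
    (Finset.univ.filter (fun w : W ↦ w ≠ 1 ∧ w ≠ w0))
    (fun w hw ↦ by
      rw [Finset.mem_filter] at hw
      exact h1 w hw.2.1 hw.2.2) hg
  obtain ⟨f, hf, hf'⟩ := exists_lift_of_van ε hε _ hs'2 (fun w hw1 hw2 ↦
    hs'3 w (Finset.mem_filter.mpr ⟨Finset.mem_univ _, hw1, hw2⟩))
  obtain ⟨s, hs, hs2⟩ := hp f hf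
  have h2 : act (ZMod 2) n (s * p) (act (ZMod 2) n s' g) = 0 := by
    rw [← hf', ← red_act]
    ext x
    exact hs2 x
  have h3 := Phi_act (π := π) hn hT (s * p) hs'2
  rw [h2, Phi_zero, Phi_act (π := π) hn hT s' hg, map_mul] at h3
  have h4 := hs'.mul hgu
  have h5 : evl (dihl (𝓐 := 𝓐) π u) s * evl (dihl (𝓐 := 𝓐) π u) p = 0 := by
    rw [eq_comm] at h3
    exact (h4.mul_left_eq_zero).mp h3
  exact (hs.mul_right_eq_zero).mp h5

/-- **The dihedral eigensystem occurs in every sign space.** -/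
theorem star [Finite W] (hn : Equivar (W := W) n) (hW : ∀ w : W, w * w = 1)
    (ε : W →* ℤˣ) (hε : ε w0 = 1) (c0 : C)
    (hsep : ∀ (c c' : C) (w : W), w • e c' = e c → c = c' ∨ c * c' = c0)
    (hT : ∀ (l : L) (c : C) (g : X → ZMod 2), Inv W g →
      op (ZMod 2) n l g (e c) = ((u l).map fun μ ↦ g (e (μ * c))).sum)
    (h1 : ∀ w : W, w ≠ 1 → w ≠ w0 → ∃ l, IsUnit (dihl (𝓐 := 𝓐) π u l) ∧
      ∀ x y : X, w • x = x → w • y = y → Even (n l x y))
    (ha : ∃ a : C, IsUnit ((π a : 𝓐) ^ 2 + (π c0 : 𝓐)))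
    (p : FreeAlgebra ℤ L)
    (hp : ∀ f : X → ℤ, Eps ε f → ∃ s, IsUnit (evl (dihl (𝓐 := 𝓐) π u) s) ∧
      ∀ x, ((act ℤ n (s * p) f x : ℤ) : ZMod 2) = 0) :
    evl (dihl (𝓐 := 𝓐) π u) p = 0 :=
  star' hn hW ε hε c0 hsep hT (fun w hw hw' ↦ by
    obtain ⟨l, hl, hl'⟩ := h1 w hw hw'
    exact ⟨l, hl, fun g hg ↦ van_op_of_even hn (hW w) hg hl'⟩) ha p hp

end Star

end Fermat.Agent.P2.Smith
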