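import Mathlib
import Fermat.Agent.P2.Smith.Star

/-!
# P2, block 3-SMITH: the version adapted to `P2.Block34Out`

Only evenness on the fixed points of `w0` is needed, and `𝓐` is an arbitrary commutative ring
under `F_2[C]`.
-/

set_option autoImplicit false

noncomputable section

namespace Fermat.Agent.P2.Smith

open scoped Classical

variable {X W L : Type*} [Fintype X] [CommGroup W] [MulAction W X] {n : L → X → X → ℤ} {w0 : W}

section Phi2

variable {Y : Type*} [Fintype Y] [MulAction W Y] {m : L → Y → Y → ℤ}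
variable {𝓐 C : Type*} [CommRing 𝓐] (z : ZMod 2 →+* 𝓐) [CommGroup C] [Fintype C]
  (π : C →* 𝓐) (e : C → Y)

/-- the functional `Φ(g) = ∑_c g(e c) π(c⁻¹)` -/
def Phi2 (g : Y → ZMod 2) : 𝓐 := ∑ c : C, z (g (e c)) * π c⁻¹

omit [Fintype Y] in
lemma Phi2_add (g g' : Y → ZMod 2) : Phi2 z π e (g + g') = Phi2 z π e g + Phi2 z π e g' := by
  unfold Phi2
  rw [← Finset.sum_add_distrib]
  refine Finset.sum_congr rfl fun c _ ↦ ?_
  rw [Pi.add_apply, map_add, add_mul]

omit [Fintype Y] in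
lemma Phi2_zero : Phi2 (Y := Y) z π e 0 = 0 := by
  unfold Phi2
  refine Finset.sum_eq_zero fun c _ ↦ ?_
  rw [Pi.zero_apply, map_zero, zero_mul]

omit [Fintype Y] in
lemma Phi2_zsmul (r : ℤ) (g : Y → ZMod 2) : Phi2 z π e (r • g) = (r : 𝓐) * Phi2 z π e g := by
  unfold Phi2
  rw [Finset.mul_sum]
  refine Finset.sum_congr rfl fun c _ ↦ ?_
  rw [Pi.smul_apply, zsmul_eq_mul, map_mul, map_intCast, mul_assoc]

variable (u : L → Multiset C)

/-- the dihedral eigenvalue -/
def dih2 (l : L) : 𝓐 := ((u l).map fun μ ↦ π μ).sum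

variable {z π e u}

lemma Phi2_op (hT : ∀ (l : L) (c : C) (g : Y → ZMod 2), Inv W g →
      op (ZMod 2) m l g (e c) = ((u l).map fun μ ↦ g (e (μ * c))).sum)
    {g : Y → ZMod 2} (hg : Inv W g) (l : L) :
    Phi2 z π e (op (ZMod 2) m l g) = dih2 π u l * Phi2 z π e g := by
  have h1 : ∀ s : Multiset C, ∑ c : C, z ((s.map fun μ ↦ g (e (μ * c))).sum) *
      π c⁻¹ = (s.map fun μ ↦ π μ).sum * Phi2 z π e g := by
    intro s
    induction s using Multiset.induction_on with
    | empty => simp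
    | cons μ s ih =>
      simp only [Multiset.map_cons, Multiset.sum_cons, map_add, add_mul, Finset.sum_add_distrib]
      rw [ih]
      congr 1
      unfold Phi2
      rw [← Equiv.sum_comp (Equiv.mulLeft μ) (fun c ↦ z (g (e c)) * π c⁻¹), Finset.mul_sum]
      refine Finset.sum_congr rfl fun c _ ↦ ?_
      show z (g (e (μ * c))) * π c⁻¹ = π μ * (z (g (e (μ * c))) * π (μ * c)⁻¹)
      have e1 : π c⁻¹ = π μ * π (μ * c)⁻¹ := by
        rw [← map_mul, mul_inv, mul_inv_cancel_left]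
      rw [e1]
      ring
  unfold dih2
  rw [← h1]
  unfold Phi2
  exact Finset.sum_congr rfl fun c _ ↦ by rw [hT l c g hg]

lemma Phi2_act (hn : Equivar (W := W) m)
    (hT : ∀ (l : L) (c : C) (g : Y → ZMod 2), Inv W g →
      op (ZMod 2) m l g (e c) = ((u l).map fun μ ↦ g (e (μ * c))).sum)
    (p : FreeAlgebra ℤ L) {g : Y → ZMod 2} (hg : Inv W g) :
    Phi2 z π e (act (ZMod 2) m p g) = evl (dih2 π u) p * Phi2 z π e g := by
  induction p using FreeAlgebra.induction generalizing g with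
  | grade0 r =>
    rw [AlgHom.commutes, AlgHom.commutes]
    show Phi2 z π e (r • g) = _
    rw [Phi2_zsmul]
    simp
  | grade1 l => rw [act_ι, evl_ι]; exact Phi2_op hT hg l
  | mul a b ha hb =>
    rw [map_mul, map_mul]
    show Phi2 z π e (act (ZMod 2) m a (act (ZMod 2) m b g)) = _
    rw [ha (hg.act hn b), hb hg, mul_assoc]
  | add a b ha hb =>
    rw [map_add, map_add, add_mul, ← ha hg, ← hb hg]
    exact Phi2_add _ _ _ _ _

omit [Fintype Y] in
/-- for every `a` there is an invariant function at which `Φ` divides `π(a)² + π(c0)` -/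
lemma exists_Phi2_dvd (c0 : C)
    (hsep : ∀ (c c' : C) (w : W), w • e c' = e c → c = c' ∨ c * c' = c0) (a : C) :
    ∃ g : Y → ZMod 2, Inv W g ∧ Phi2 z π e g ∣ π a ^ 2 + π c0 := by
  let g : Y → ZMod 2 := fun x ↦ if ∃ w : W, w • e a = x then 1 else 0
  have hg : Inv W g := by
    intro w x
    have : (∃ w' : W, w' • e a = w • x) ↔ ∃ w' : W, w' • e a = x := by
      constructor
      · rintro ⟨w', h⟩
        exact ⟨w⁻¹ * w', by rw [mul_smul, h, inv_smul_smul]⟩
      · rintro ⟨w', h⟩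
        exact ⟨w * w', by rw [mul_smul, h]⟩
    simp only [g, this]
  refine ⟨g, hg, ?_⟩
  have hga : g (e a) = 1 := if_pos ⟨1, one_smul _ _⟩
  have hua : IsUnit (π a⁻¹) :=
    IsUnit.of_mul_eq_one (π a) (by rw [← map_mul, inv_mul_cancel, map_one])
  -- only `a` and `c0 / a` contribute
  have hsupp : ∀ c : C, c ≠ a → c ≠ c0 * a⁻¹ → g (e c) = 0 := by
    intro c h1 h2
    refine if_neg ?_
    rintro ⟨w, hw⟩
    rcases hsep c a w hw with h | h
    · exact h1 h
    · exact h2 (by rw [← h, mul_inv_cancel_right])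
  by_cases hne : a = c0 * a⁻¹ ∨ g (e (c0 * a⁻¹)) = 0
  · have : Phi2 z π e g = π a⁻¹ := by
      unfold Phi2
      rw [Finset.sum_eq_single a]
      · rw [hga, map_one, one_mul]
      · intro c _ hc
        by_cases h : c = c0 * a⁻¹
        · rcases hne with h' | h'
          · exact absurd (h.trans h'.symm) hc
          · rw [h, h', map_zero, zero_mul]
        · rw [hsupp c hc h, map_zero, zero_mul]
      · exact fun h ↦ absurd (Finset.mem_univ _) h
    rw [this]
    exact hua.dvd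
  · push Not at hne
    obtain ⟨hne, h2⟩ := hne
    have h3 : g (e (c0 * a⁻¹)) = 1 := by
      have : ∀ z : ZMod 2, z ≠ 0 → z = 1 := by decide
      exact this _ h2
    have : Phi2 z π e g = π a⁻¹ + π (c0 * a⁻¹)⁻¹ := by
      unfold Phi2
      rw [← Finset.sum_subset (Finset.subset_univ {a, c0 * a⁻¹}), Finset.sum_pair hne, hga, h3,
        map_one, one_mul, one_mul]
      intro c _ hc
      rw [Finset.mem_insert, Finset.mem_singleton, not_or] at hc
      rw [hsupp c hc.1 hc.2, map_zero, zero_mul]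
    rw [this]
    refine ⟨π (a * c0), ?_⟩
    have e1 : π a⁻¹ * π (a * c0) = π c0 := by rw [← map_mul, inv_mul_cancel_left]
    have e2 : π (c0 * a⁻¹)⁻¹ * π (a * c0) = π a ^ 2 := by
      rw [← map_mul, ← map_pow]
      congr 1
      rw [mul_inv, inv_inv, mul_comm a c0, mul_mul_mul_comm, inv_mul_cancel, one_mul, pow_two]
    rw [add_mul, e1, e2, add_comm]

end Phi2

section Star2

variable {𝓐 C : Type*} [CommRing 𝓐] [CommGroup C] [Fintype C]
  {π : C →* 𝓐} {e : C → X} {u : L → Multiset C}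

/-- **The dihedral eigensystem occurs in every sign space**, version adapted to `Block34Out`. -/
theorem star2 [Finite W] (z : ZMod 2 →+* 𝓐) (hn : Equivar (W := W) n) (hW : ∀ w : W, w * w = 1)
    (ε : W →* ℤˣ) (hε : ε w0 = 1) (he : ∀ c, w0 • e c = e c) (c0 : C)
    (hsep : ∀ (c c' : C) (w : W), w • e c' = e c → c = c' ∨ c * c' = c0)
    (hT : ∀ (l : L) (c : C) (g : X → ZMod 2), Inv W g →
      op (ZMod 2) n l g (e c) = ((u l).map fun μ ↦ g (e (μ * c))).sum)
    (h1 : ∀ w : W, w ≠ 1 → w ≠ w0 → ∃ l, IsUnit (dih2 π u l) ∧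
      ∀ x y : X, w0 • x = x → w0 • y = y → w • x = x → w • y = y → Even (n l x y))
    (ha : ∃ a : C, IsUnit (π a ^ 2 + 1))
    (p : FreeAlgebra ℤ L)
    (hp : ∀ f : X → ℤ, Eps ε f → ∃ s, IsUnit (evl (dih2 π u) s) ∧
      ∀ x, ((act ℤ n (s * p) f x : ℤ) : ZMod 2) = 0) :
    evl (dih2 π u) p = 0 := by
  haveI := Fintype.ofFinite W
  have hm := rest_equivar hn w0
  let e' : C → Fix X w0 := fun c ↦ ⟨e c, he c⟩
  have hsep' : ∀ (c c' : C) (w : W), w • e' c' = e' c → c = c' ∨ c * c' = c0 :=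
    fun c c' w h ↦ hsep c c' w (congrArg Subtype.val h)
  have hT' : ∀ (l : L) (c : C) (g : Fix X w0 → ZMod 2), Inv W g →
      op (ZMod 2) (rest n (fun x ↦ w0 • x = x)) l g (e' c) =
        ((u l).map fun μ ↦ g (e' (μ * c))).sum := by
    intro l c g hg
    let G : X → ZMod 2 := fun x ↦ if h : w0 • x = x then g ⟨x, h⟩ else 0
    have hGx : ∀ x : Fix X w0, G x = g x := fun x ↦ by simp only [G, dif_pos x.2]
    have hG : Inv W G := by
      intro w x
      by_cases h : w0 • x = x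
      · have h' : w0 • w • x = w • x := by rw [smul_smul, mul_comm, mul_smul, h]
        simp only [G, dif_pos h, dif_pos h']
        exact hg w ⟨x, h⟩
      · have h' : ¬ w0 • w • x = w • x := by
          intro h'
          rw [smul_smul, mul_comm, mul_smul] at h'
          exact h (MulAction.injective w h')
        simp only [G, dif_neg h, dif_neg h']
    have h2 := hT l c G hG
    have h3 : ((u l).map fun μ ↦ G (e (μ * c))) = (u l).map fun μ ↦ g (e' (μ * c)) :=
      Multiset.map_congr rfl fun μ _ ↦ hGx (e' (μ * c))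
    rw [← h3, ← h2, op_apply, op_apply]
    symm
    rw [← Finset.sum_filter_add_sum_filter_not Finset.univ (fun y : X ↦ w0 • y = y)
      (fun y ↦ (n l (e c) y : ZMod 2) * G y)]
    have h4 : ∑ y ∈ Finset.univ.filter (fun y : X ↦ ¬ w0 • y = y),
        (n l (e c) y : ZMod 2) * G y = 0 := by
      refine Finset.sum_eq_zero fun y hy ↦ ?_
      have : G y = 0 := dif_neg (Finset.mem_filter.mp hy).2
      rw [this, mul_zero]
    rw [h4, add_zero]
    rw [Finset.sum_subtype_of_mem (p := fun y ↦ w0 • y = y)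
      (fun y ↦ (n l (e c) y : ZMod 2) * G y) (fun y hy ↦ (Finset.mem_filter.mp hy).2) |>.symm]
    refine Finset.sum_congr ?_ fun y _ ↦ ?_
    · ext y
      simp [y.2]
    · rw [hGx y]
      rfl
  have key : ∀ a : C, evl (dih2 π u) p * (π a ^ 2 + π c0) = 0 := by
    intro a
    obtain ⟨g, hg, hgu⟩ := exists_Phi2_dvd (W := W) (z := z) (π := π) (e := e') c0 hsep' a
    obtain ⟨s', hs', hs'2, hs'3⟩ := exists_van_unit (dih2 π u) hm hW
      (Finset.univ.filter (fun w : W ↦ w ≠ 1 ∧ w ≠ w0))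
      (fun w hw ↦ by
        rw [Finset.mem_filter] at hw
        obtain ⟨l, hl, hl'⟩ := h1 w hw.2.1 hw.2.2
        exact ⟨l, hl, fun g hg ↦ van_op_of_even hm (hW w) hg fun x y hx hy ↦
          hl' x y x.2 y.2 (congrArg Subtype.val hx) (congrArg Subtype.val hy)⟩) hg
    obtain ⟨f, hf, hf'⟩ := exists_lift ε hε _ hs'2 (fun w hw1 hw2 x hx ↦
      hs'3 w (Finset.mem_filter.mpr ⟨Finset.mem_univ _, hw1, hw2⟩) x (Subtype.ext hx))
    obtain ⟨s, hs, hs2⟩ := hp f hf
    have h2 : act (ZMod 2) (rest n (fun x ↦ w0 • x = x)) (s * p)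
        (act (ZMod 2) (rest n (fun x ↦ w0 • x = x)) s' g) = 0 := by
      rw [← hf', ← (res_act hn (hW w0) (s * p) hf.inv2).2]
      ext x
      exact hs2 x
    have h3 := Phi2_act (z := z) (π := π) (u := u) hm hT' (s * p) hs'2
    rw [h2, Phi2_zero, Phi2_act (z := z) (π := π) (u := u) hm hT' s' hg, map_mul] at h3
    have h4 : evl (dih2 π u) p * Phi2 z π e' g = 0 := by
      have h5 : evl (dih2 π u) s * (evl (dih2 π u) s' * (evl (dih2 π u) p * Phi2 z π e' g)) = 0 := by
        rw [h3]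
        ring
      exact (hs'.mul_right_eq_zero).mp ((hs.mul_right_eq_zero).mp h5)
    obtain ⟨r, hr⟩ := hgu
    rw [hr, ← mul_assoc, h4, zero_mul]
  obtain ⟨a, ha⟩ := ha
  have h2 : evl (dih2 π u) p * (π a ^ 2 + 1) = 0 := by
    have e1 := key 1
    have e2 := key a
    rw [map_one, one_pow] at e1
    have htwo : (2 : 𝓐) = 0 := by
      have : z 2 = 2 := map_ofNat z 2
      rw [← this]
      have : (2 : ZMod 2) = 0 := rfl
      rw [this, map_zero]
    have : evl (dih2 π u) p * (π a ^ 2 + 1) =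
        evl (dih2 π u) p * (π a ^ 2 + π c0) + evl (dih2 π u) p * (1 + π c0) -
          2 * (evl (dih2 π u) p * π c0) := by ring
    rw [this, e1, e2, htwo]
    ring
  exact (ha.mul_left_eq_zero).mp h2

/-- version for an arbitrary ring `P` acting through the correspondences -/
theorem star2_adjoin [Finite W] (z : ZMod 2 →+* 𝓐) (hn : Equivar (W := W) n) (hW : ∀ w : W, w * w = 1)
    (ε : W →* ℤˣ) (hε : ε w0 = 1) (he : ∀ c, w0 • e c = e c) (c0 : C)
    (hsep : ∀ (c c' : C) (w : W), w • e c' = e c → c = c' ∨ c * c' = c0)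
    (hT : ∀ (l : L) (c : C) (g : X → ZMod 2), Inv W g →
      op (ZMod 2) n l g (e c) = ((u l).map fun μ ↦ g (e (μ * c))).sum)
    (h1 : ∀ w : W, w ≠ 1 → w ≠ w0 → ∃ l, IsUnit (dih2 π u l) ∧
      ∀ x y : X, w0 • x = x → w0 • y = y → w • x = x → w • y = y → Even (n l x y))
    (ha : ∃ a : C, IsUnit (π a ^ 2 + 1))
    {P : Type*} [Ring P] (A : P →+* Module.End ℤ (X → ℤ)) (φ : P →+* 𝓐) (t : L → P)
    (hA : ∀ l, A (t l) = op ℤ n l) (hφ : ∀ l, φ (t l) = dih2 π u l)
    (p : P) (hpt : p ∈ Algebra.adjoin ℤ (Set.range t))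
    (hp : ∀ f : X → ℤ, Eps ε f → ∃ s ∈ Algebra.adjoin ℤ (Set.range t), IsUnit (φ s) ∧
      ∀ x, (((A (s * p) f x : ℤ)) : ZMod 2) = 0) :
    φ p = 0 := by
  have hA' : ∀ q : FreeAlgebra ℤ L, A (FreeAlgebra.lift ℤ t q) = act ℤ n q := by
    have : (A.toIntAlgHom).comp (FreeAlgebra.lift ℤ t) = act ℤ n := by
      ext1
      funext l
      show A (FreeAlgebra.lift ℤ t (FreeAlgebra.ι ℤ l)) = act ℤ n (FreeAlgebra.ι ℤ l)
      rw [FreeAlgebra.lift_ι_apply, hA, act_ι]
    intro q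
    exact congrArg (fun F : FreeAlgebra ℤ L →ₐ[ℤ] Module.End ℤ (X → ℤ) ↦ F q) this
  have hφ' : ∀ q : FreeAlgebra ℤ L, φ (FreeAlgebra.lift ℤ t q) = evl (dih2 π u) q := by
    have : (φ.toIntAlgHom).comp (FreeAlgebra.lift ℤ t) = evl (dih2 π u) := by
      ext1
      funext l
      show φ (FreeAlgebra.lift ℤ t (FreeAlgebra.ι ℤ l)) = evl _ (FreeAlgebra.ι ℤ l)
      rw [FreeAlgebra.lift_ι_apply, hφ, evl_ι]
    intro q
    exact congrArg (fun F : FreeAlgebra ℤ L →ₐ[ℤ] 𝓐 ↦ F q) this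
  have hadj : ∀ x ∈ Algebra.adjoin ℤ (Set.range t), ∃ q : FreeAlgebra ℤ L,
      FreeAlgebra.lift ℤ t q = x := by
    intro x hx
    rw [Algebra.adjoin_range_eq_range_freeAlgebra_lift] at hx
    exact hx
  obtain ⟨q, rfl⟩ := hadj p hpt
  rw [hφ']
  refine star2 z hn hW ε hε he c0 hsep hT h1 ha q fun f hf ↦ ?_
  obtain ⟨s, hs, hs1, hs2⟩ := hp f hf
  obtain ⟨s, rfl⟩ := hadj s hs
  refine ⟨s, by rw [← hφ']; exact hs1, fun x ↦ ?_⟩
  rw [← hA', map_mul]
  exact hs2 x

end Star2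

end Fermat.Agent.P2.Smith
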