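import Mathlib
import Fermat.Agent.P2.Smith.Star

/-!
# P2, block 3-SMITH: versions for polynomial Hecke algebras and for group algebras `K[H]`
-/

set_option autoImplicit false

noncomputable section

namespace Fermat.Agent.P2.Smith

open scoped Classical

section Adjoin

variable {X W L : Type*} [Fintype X] [CommGroup W] [MulAction W X] {n : L → X → X → ℤ} {w0 : W}
variable {𝓐 C : Type*} [CommRing 𝓐] [CharP 𝓐 2] [CommGroup C] [Fintype C]
  {π : C →* 𝓐ˣ} {e : C → X} {u : L → Multiset C}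

/-- version for an arbitrary ring `P` acting through the correspondences -/
theorem star_adjoin [Finite W] (hn : Equivar (W := W) n) (hW : ∀ w : W, w * w = 1)
    (ε : W →* ℤˣ) (hε : ε w0 = 1) (c0 : C)
    (hsep : ∀ (c c' : C) (w : W), w • e c' = e c → c = c' ∨ c * c' = c0)
    (hT : ∀ (l : L) (c : C) (g : X → ZMod 2), Inv W g →
      op (ZMod 2) n l g (e c) = ((u l).map fun μ ↦ g (e (μ * c))).sum)
    (h1 : ∀ w : W, w ≠ 1 → w ≠ w0 → ∃ l, IsUnit (dihl (𝓐 := 𝓐) π u l) ∧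
      ∀ x y : X, w • x = x → w • y = y → Even (n l x y))
    (ha : ∃ a : C, IsUnit ((π a : 𝓐) ^ 2 + (π c0 : 𝓐)))
    {P : Type*} [Ring P] (A : P →+* Module.End ℤ (X → ℤ)) (φ : P →+* 𝓐) (t : L → P)
    (hA : ∀ l, A (t l) = op ℤ n l) (hφ : ∀ l, φ (t l) = dihl (𝓐 := 𝓐) π u l)
    (p : P) (hpt : p ∈ Algebra.adjoin ℤ (Set.range t))
    (hp : ∀ f : X → ℤ, Eps ε f → ∃ s ∈ Algebra.adjoin ℤ (Set.range t), IsUnit (φ s) ∧
      ∀ x, (((A (s * p) f x : ℤ)) : ZMod 2) = 0) :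
    φ p = 0 := by
  have hA' : ∀ q : FreeAlgebra ℤ L, A (FreeAlgebra.lift ℤ t q) = act ℤ n q := by
    have : (A.toIntAlgHom).comp (FreeAlgebra.lift ℤ t) = act ℤ n := by
      ext1
      funext l
      show A (FreeAlgebra.lift ℤ t (FreeAlgebra.ι ℤ l)) = act ℤ n (FreeAlgebra.ι ℤ l)
      rw [FreeAlgebra.lift_ι_apply, hA, act_ι]
    intro q
    exact congrArg (fun F : FreeAlgebra ℤ L →ₐ[ℤ] Module.End ℤ (X → ℤ) ↦ F q) this
  have hφ' : ∀ q : FreeAlgebra ℤ L, φ (FreeAlgebra.lift ℤ t q) = evl (dihl (𝓐 := 𝓐) π u) q := by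
    have : (φ.toIntAlgHom).comp (FreeAlgebra.lift ℤ t) = evl (dihl (𝓐 := 𝓐) π u) := by
      ext1
      funext l
      show φ (FreeAlgebra.lift ℤ t (FreeAlgebra.ι ℤ l)) = evl _ (FreeAlgebra.ι ℤ l)
      rw [FreeAlgebra.lift_ι_apply, hφ, evl_ι]
    intro q
    exact congrArg (fun F : FreeAlgebra ℤ L →ₐ[ℤ] 𝓐 ↦ F q) this
  have hadj : ∀ x ∈ Algebra.adjoin ℤ (Set.range t), ∃ q : FreeAlgebra ℤ L,
      FreeAlgebra.lift ℤ t q = x := by
    intro x hx
    rw [Algebra.adjoin_range_eq_range_freeAlgebra_lift] at hx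
    exact hx
  obtain ⟨q, rfl⟩ := hadj p hpt
  rw [hφ']
  refine star hn hW ε hε c0 hsep hT h1 ha q fun f hf ↦ ?_
  obtain ⟨s, hs, hs1, hs2⟩ := hp f hf
  obtain ⟨s, rfl⟩ := hadj s hs
  refine ⟨s, by rw [← hφ']; exact hs1, fun x ↦ ?_⟩
  rw [← hA', map_mul]
  exact hs2 x

end Adjoin

section GA

variable {C H K : Type*} [CommGroup C] [CommGroup H] [Field K] [CharP K 2]
  (ψ : C →* Kˣ) (κ : C →* H)

instance charP_monoidAlgebra : CharP (MonoidAlgebra K H) 2 :=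
  charP_of_injective_algebraMap (algebraMap K (MonoidAlgebra K H)).injective 2

/-- the character `c ↦ ψ(c) [κ(c)]` with values in the group algebra -/
def piGA : C →* (MonoidAlgebra K H)ˣ :=
  MonoidHom.toHomUnits
    { toFun := fun c ↦ MonoidAlgebra.single (κ c) (ψ c : K)
      map_one' := by simp [MonoidAlgebra.one_def]
      map_mul' := fun c c' ↦ by simp [MonoidAlgebra.single_mul_single] }

@[simp] lemma piGA_coe (c : C) : ((piGA ψ κ c : (MonoidAlgebra K H)ˣ) : MonoidAlgebra K H) =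
    MonoidAlgebra.single (κ c) (ψ c : K) := rfl

variable {ψ κ}

lemma unit_sq_eq_one {x : Kˣ} (hx : x ^ 2 = 1) : x = 1 := by
  have h1 : ((x : K) + 1) ^ 2 = 0 := by
    have : ((x : K)) ^ 2 = 1 := by rw [← Units.val_pow_eq_pow_val, hx, Units.val_one]
    rw [add_sq, this]
    have h2 : (2 : K) = 0 := CharTwo.two_eq_zero
    rw [h2]
    ring_nf
    exact h2
  have h2 : (x : K) + 1 = 0 := by simpa using h1
  have h3 : (x : K) = 1 := by
    rw [eq_comm, ← sub_eq_zero, CharTwo.sub_eq_add, add_comm]; exact h2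
  exact Units.ext h3

/-- the condition (ha) is automatic -/
lemma exists_isUnit_piGA {m : ℕ} (hm : ∀ h : H, h ^ 2 ^ m = 1) (hψ : ψ ≠ 1) (c0 : C) :
    ∃ a : C, IsUnit (((piGA ψ κ a : (MonoidAlgebra K H)ˣ) : MonoidAlgebra K H) ^ 2 +
      ((piGA ψ κ c0 : (MonoidAlgebra K H)ˣ) : MonoidAlgebra K H)) := by
  obtain ⟨b, hb⟩ : ∃ b, ψ b ≠ 1 := by
    by_contra hcon
    push Not at hcon
    exact hψ (MonoidHom.ext hcon)
  -- one of `1`, `b` works
  have key : ∃ a : C, (ψ a : K) ^ 2 + (ψ c0 : K) ≠ 0 := by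
    by_contra hcon
    push Not at hcon
    have e1 := hcon 1
    have e2 := hcon b
    rw [map_one, Units.val_one, one_pow] at e1
    have e3 : (ψ b : K) ^ 2 = 1 := by
      have := e2.trans e1.symm
      exact add_right_cancel this
    exact hb (unit_sq_eq_one (Units.ext (by rw [Units.val_pow_eq_pow_val, e3, Units.val_one])))
  obtain ⟨a, ha⟩ := key
  refine ⟨a, isUnit_of_aug_ne_zero hm ?_⟩
  rw [map_add, map_pow, piGA_coe, piGA_coe, aug_single, aug_single]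
  exact ha

lemma isUnit_dih_of_ne_one {L : Type*} {m : ℕ} (hm : ∀ h : H, h ^ 2 ^ m = 1)
    {u : L → Multiset C} {l : L} {c : C} (hu : u l = {c, c⁻¹}) (hc : ψ c ≠ 1) :
    IsUnit (dihl (piGA ψ κ) u l) := by
  refine isUnit_of_aug_ne_zero hm ?_
  unfold dihl
  rw [hu]
  simp only [Multiset.insert_eq_cons, Multiset.map_cons, Multiset.map_singleton,
    Multiset.sum_cons, Multiset.sum_singleton, piGA_coe, map_add, aug_single]
  intro h
  apply hc
  apply unit_sq_eq_one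
  apply Units.ext
  rw [Units.val_pow_eq_pow_val, Units.val_one]
  have h2 : (ψ c : K) * ((ψ c : K) + ((ψ c⁻¹ : Kˣ) : K)) = 0 := by rw [h, mul_zero]
  rw [mul_add, ← Units.val_mul (ψ c) (ψ c⁻¹), ← map_mul, mul_inv_cancel, map_one,
    Units.val_one] at h2
  have h3 : (ψ c : K) ^ 2 + 1 = 1 + 1 := by
    rw [pow_two, h2, CharTwo.add_self_eq_zero]
  exact add_right_cancel h3

lemma dihl_split {L : Type*} {u : L → Multiset C} {l : L} {c : C} (hu : u l = {c, c⁻¹}) :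
    dihl (piGA ψ κ) u l = MonoidAlgebra.single (κ c) (ψ c : K) +
      MonoidAlgebra.single (κ c)⁻¹ (((ψ c)⁻¹ : Kˣ) : K) := by
  unfold dihl
  rw [hu]
  simp [Multiset.insert_eq_cons]

lemma dihl_inert {L : Type*} {u : L → Multiset C} {l : L} (hu : u l = 0) :
    dihl (piGA ψ κ) u l = 0 := by
  unfold dihl
  rw [hu]
  simp

variable {X W L : Type*} [Fintype X] [CommGroup W] [MulAction W X] {n : L → X → X → ℤ} {w0 : W}
  [Fintype C] {e : C → X} {u : L → Multiset C}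

/-- **Final form**: the eigensystem `t_l ↦ ψ(λ)[κ(λ)] + ψ(λ)⁻¹[κ(λ)⁻¹]` (`l` split),
`t_l ↦ 0` (`l` inert) occurs in every sign space. -/
theorem star_ga [Finite W] (hn : Equivar (W := W) n) (hW : ∀ w : W, w * w = 1)
    (ε : W →* ℤˣ) (hε : ε w0 = 1) (c0 : C)
    (hsep : ∀ (c c' : C) (w : W), w • e c' = e c → c = c' ∨ c * c' = c0)
    (hT : ∀ (l : L) (c : C) (g : X → ZMod 2), Inv W g →
      op (ZMod 2) n l g (e c) = ((u l).map fun μ ↦ g (e (μ * c))).sum)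
    {m : ℕ} (hm : ∀ h : H, h ^ 2 ^ m = 1) (hψ : ψ ≠ 1)
    (h1 : ∀ w : W, w ≠ 1 → w ≠ w0 → ∃ (l : L) (c : C), u l = {c, c⁻¹} ∧ ψ c ≠ 1 ∧
      ∀ x y : X, w • x = x → w • y = y → Even (n l x y))
    {P : Type*} [Ring P] (A : P →+* Module.End ℤ (X → ℤ)) (φ : P →+* MonoidAlgebra K H) (t : L → P)
    (hA : ∀ l, A (t l) = op ℤ n l) (hφ : ∀ l, φ (t l) = dihl (piGA ψ κ) u l)
    (p : P) (hpt : p ∈ Algebra.adjoin ℤ (Set.range t))
    (hp : ∀ f : X → ℤ, Eps ε f → ∃ s ∈ Algebra.adjoin ℤ (Set.range t), IsUnit (φ s) ∧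
      ∀ x, (((A (s * p) f x : ℤ)) : ZMod 2) = 0) :
    φ p = 0 :=
  star_adjoin hn hW ε hε c0 hsep hT (fun w hw hw' ↦ by
    obtain ⟨l, c, hl, hc, hl'⟩ := h1 w hw hw'
    exact ⟨l, isUnit_dih_of_ne_one hm hl hc, hl'⟩) (exists_isUnit_piGA hm hψ c0) A φ t hA hφ p hpt hp

end GA

end Fermat.Agent.P2.Smith
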